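/-
Program A (S29 + S42), leaf (HECKE), divisor side (helper13).

The Prelude's Hecke operator on `JZero N = Pic⁰(F_N / ℚ̄)` is the correspondence `α_* ∘ β^*`
(`heckePic0Bar = Pic0.correspondence β α`).  On a class `[D]` with `n • D = div u` it is therefore
the class of a divisor `D'` with `n • D' = div (N_α (β u))`, where `N_α` is the norm of
`F_{Nℓ}` over `α(F_N)`.  This is the divisor half of the Hecke equivariance of the
Abel–Jacobi-type map `AJ : L(N)/pL(N) → JZero N [p]` (design #1835, section 3 (HECKE)).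

* `correspondence_of_smul_eq_div` : generic statement for `Divisor.correspondence φ ψ`.
* `normAB N ℓ u` : `N_α (β u) ∈ F_N`.
* `heckeOperatorBar_mk_of_smul_eq_div` : the modular statement, for every prime `ℓ`.
-/
import Fermat.Prelude.Def_ModularCurve_HeckeModule
import Fermat.Agent.S37.H13.HeckeInputs

set_option autoImplicit false
set_option linter.unusedSectionVars false
set_option linter.style.haveILetI false

open AlgebraicCurve

noncomputable section

namespace Fermat.Agent.S42.H13

section Generic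

variable {K F F' : Type*} [Field K] [Field F] [Field F'] [Algebra K F] [Algebra K F']
  [HasPrincipalDivisors K F']

/-- Pull-back of the divisor of `u` along `φ` is the divisor of `φ u`. -/
theorem pullbackAlong_apply_eq_ord (φ : F →ₐ[K] F') (hφ : φ.toRingHom.IsIntegral) {u : F}
    {D : Divisor K F} (hD : ∀ v : Place K F, D v = v.ord u) (w : Place K F') :
    Divisor.pullbackAlong φ hφ D w = w.ord (φ u) := by
  letI := algebraAlong φ
  haveI := isScalarTower_along φ
  haveI := isIntegral_along φ hφ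
  exact Divisor.pullback_apply_eq_ord hD w

/-- Push-forward of the divisor of `g` along `ψ` is the divisor of the norm of `g`. -/
theorem pushforwardAlong_apply_eq_ord (ψ : F →ₐ[K] F') (hψ : ψ.toRingHom.IsIntegral)
    (hfin : FiniteAlong K ψ) (hN : NormFormulaAlong K ψ hfin) {g : F'} (hg : g ≠ 0)
    {D : Divisor K F'} (hD : ∀ w : Place K F', D w = w.ord g) (v : Place K F) :
    Divisor.pushforwardAlong ψ hψ D v
      = v.ord (letI := algebraAlong ψ; Algebra.norm F g) := by
  letI := algebraAlong ψ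
  haveI := isScalarTower_along ψ
  haveI := isIntegral_along ψ hψ
  haveI : Module.Finite F F' := hfin
  exact hN g hg D hD v

/-- **Correspondence on a divisor with a principal multiple.**  If `n • D = div u` then
`n • (ψ_* φ^* D) = div (N_ψ (φ u))`. -/
theorem correspondence_of_smul_eq_div (φ ψ : F →ₐ[K] F') (hφ : φ.toRingHom.IsIntegral)
    (hψ : ψ.toRingHom.IsIntegral) (hfin : FiniteAlong K ψ) (hN : NormFormulaAlong K ψ hfin)
    (n : ℤ) {u : F} (hu : u ≠ 0) {D : Divisor K F} (hD : ∀ v : Place K F, n * D v = v.ord u)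
    (v : Place K F) :
    n * Divisor.correspondence φ ψ hφ hψ D v
      = v.ord (letI := algebraAlong ψ; Algebra.norm F (φ u)) := by
  have h1 : ∀ v : Place K F, (n • D) v = v.ord u := fun v => by
    rw [Finsupp.smul_apply, smul_eq_mul, hD v]
  have h2 : ∀ w : Place K F', Divisor.pullbackAlong φ hφ (n • D) w = w.ord (φ u) :=
    fun w => pullbackAlong_apply_eq_ord φ hφ h1 w
  have hφu : φ u ≠ 0 := (map_ne_zero_iff _ φ.injective).mpr hu
  have h3 := pushforwardAlong_apply_eq_ord ψ hψ hfin hN hφu h2 v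
  rw [← h3, ← Divisor.correspondence_apply, map_zsmul, Finsupp.smul_apply, smul_eq_mul]

end Generic

section Modular

open ModularCurve Fermat.Agent.S24

/-- `N_α (β u)`: the norm from `F_{Nℓ}` down to `F_N` along `α` of `β u`. -/
def normAB (N ℓ : ℕ) [NeZero N] [NeZero ℓ] (u : FF N) : FF N :=
  letI := algebraAlong (heckeAlphaBar Kbar N ℓ)
  Algebra.norm (FF N) (heckeBetaBar Kbar N ℓ u)

theorem normAB_def (N ℓ : ℕ) [NeZero N] [NeZero ℓ] (u : FF N) :
    normAB N ℓ u = (letI := algebraAlong (heckeAlphaBar Kbar N ℓ);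
      Algebra.norm (FF N) (heckeBetaBar Kbar N ℓ u)) := rfl

theorem normAB_ne_zero (N ℓ : ℕ) [NeZero N] [NeZero ℓ] {u : FF N} (hu : u ≠ 0) :
    normAB N ℓ u ≠ 0 := by
  letI := algebraAlong (heckeAlphaBar Kbar N ℓ)
  haveI : Module.Finite (FF N) ↥(modularFunctionFieldBar (N * ℓ)) :=
    Fermat.Agent.S37.H87.finiteAlong_alpha N ℓ
  rw [normAB_def]
  exact Algebra.norm_ne_zero_iff.mpr
    ((map_ne_zero_iff _ (heckeBetaBar Kbar N ℓ).injective).mpr hu)

theorem normAB_mul (N ℓ : ℕ) [NeZero N] [NeZero ℓ] (u u' : FF N) :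
    normAB N ℓ (u * u') = normAB N ℓ u * normAB N ℓ u' := by
  rw [normAB_def, normAB_def, normAB_def, map_mul, map_mul]

theorem normAB_one (N ℓ : ℕ) [NeZero N] [NeZero ℓ] : normAB N ℓ (1 : FF N) = 1 := by
  rw [normAB_def, map_one, map_one]

/-- **(H-a)  Hecke operator on a class with a principal multiple.**  For every prime `ℓ`, every
`u ≠ 0` in `F_N`, every integer `n` and every degree-zero divisor `D` with `n • D = div u`, the
Prelude's `heckeOperatorBar N ℓ` sends the class of `D` to the class of a degree-zero divisor `D'`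
with `n • D' = div (N_α (β u))`. -/
theorem heckeOperatorBar_mk_of_smul_eq_div (N : ℕ) [NeZero N] (ℓ : Nat.Primes) (n : ℤ)
    {u : FF N} (hu : u ≠ 0) (D : Divisor.degZero (K := Kbar) (F := FF N))
    (hD : ∀ v : Place Kbar (FF N), n * (D : Divisor Kbar (FF N)) v = v.ord u) :
    haveI : NeZero (ℓ : ℕ) := ⟨ℓ.2.ne_zero⟩
    ∃ D' : Divisor.degZero (K := Kbar) (F := FF N),
      heckeOperatorBar N ℓ (Pic0.mk D) = Pic0.mk D' ∧
        ∀ v : Place Kbar (FF N),
          n * (D' : Divisor Kbar (FF N)) v = v.ord (normAB N (ℓ : ℕ) u) := by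
  haveI : NeZero (ℓ : ℕ) := ⟨ℓ.2.ne_zero⟩
  haveI := Fermat.Agent.S37.H13.hasPrincipalDivisors_level N (ℓ : ℕ)
  refine ⟨Pic0.degZeroCorrespondence (heckeBetaBar Kbar N ℓ) (heckeAlphaBar Kbar N ℓ)
    (Fermat.Agent.S37.H87.heckeBetaBarIntegral N ℓ) (Fermat.Agent.S37.H87.heckeAlphaBarIntegral N ℓ)
    (Fermat.Agent.S37.H13.fundamentalIdentityAlong_beta N ℓ) D, ?_, fun v => ?_⟩
  · rw [heckeOperatorBar_apply, Fermat.Agent.S37.H13.heckeOperatorAlong_eq_heckePic0Bar N ℓ]
    rfl
  · rw [Pic0.coe_degZeroCorrespondence]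
    exact correspondence_of_smul_eq_div _ _ _ _ (Fermat.Agent.S37.H87.finiteAlong_alpha N ℓ)
      (Fermat.Agent.S37.H13.normFormulaAlong_alpha N ℓ) n hu hD v

end Modular

end Fermat.Agent.S42.H13
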