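/-
Program A (S29 + S42), leaf (HECKE), norm identity (helper13).

For a prime `ℓ ∤ N` the two norms `N_α(β u)` (norm of `F_{Nℓ}` over `α(F_N)` of `β u`; this is
what the Prelude's Hecke operator `T_ℓ = α_* ∘ β^*` produces on principal divisors) and
`N_β(α u)` (landed: `S37/H65/Conj/Norm.lean`, `coe_norm_alpha`) coincide, and both equal
`heckeKron ζ ℓ u`, i.e.

  `N_α(β u)(q^ℓ) = u(q^{ℓ²}) · ∏_{b<ℓ} u(ζ^b q)`.

No new computation of conjugates is needed: the landed "last conjugate" `ψ` of `F_{Nℓ}` over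
`β(F_N)` satisfies `ψ(α c) = c(q^{ℓ²})` and `ψ(β c) = c(q^ℓ)`, so it takes values in the image of
`θ : F_{Nℓ} → Ω`, `g ↦ g(q^ℓ)`, and `w := θ⁻¹ ∘ ψ` is an involution of `F_{Nℓ}` exchanging `α`
and `β` (the formal Atkin–Lehner involution `W_ℓ`).  Transport of the norm along `w` gives
`N_α(x) = N_β(w x)`.
-/
import Mathlib
import Fermat.Agent.S37.H65.Conj.Norm
import Fermat.Agent.S37.H46.RegionModular
import Fermat.Agent.S42.H13.HeckeDiv

set_option autoImplicit false
set_option linter.style.haveILetI false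
set_option linter.unusedSectionVars false

noncomputable section

namespace Fermat.Agent.S42.H13

open ModularCurve AlgebraicCurve IntermediateField Fermat.Agent.S18.H66 Fermat.Agent.S37.H65
  Fermat.Agent.S28

section Generic

/-- Membership in a subfield of an intermediate field generated by `S` can be checked on the
constants and on `S`. -/
theorem forall_mem_subfield_of_le_adjoin {K L : Type*} [Field K] [Field L] [Algebra K L]
    (M : IntermediateField K L) {S : Set L} (hS : S ⊆ M) (hM : M ≤ adjoin K S)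
    (T : Subfield M) (hK : ∀ a : K, algebraMap K M a ∈ T)
    (hgen : ∀ x (hx : x ∈ S), (⟨x, hS hx⟩ : M) ∈ T) (x : M) : x ∈ T := by
  have hSM : adjoin K S ≤ M := adjoin_le_iff.mpr hS
  have key : ∀ x (_ : x ∈ adjoin K S), ∀ hx' : x ∈ M, (⟨x, hx'⟩ : M) ∈ T := by
    intro x hx
    induction hx using IntermediateField.adjoin_induction with
    | mem y hy => intro _; exact hgen y hy
    | algebraMap a => intro _; exact hK a
    | add y z hy hz iy iz =>
      intro h
      have e : (⟨y + z, h⟩ : M) = ⟨y, hSM hy⟩ + ⟨z, hSM hz⟩ := rfl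
      rw [e]
      exact T.add_mem (iy _) (iz _)
    | inv y hy iy =>
      intro h
      have e : (⟨y⁻¹, h⟩ : M) = (⟨y, hSM hy⟩ : M)⁻¹ := rfl
      rw [e]
      exact T.inv_mem (iy _)
    | mul y z hy hz iy iz =>
      intro h
      have e : (⟨y * z, h⟩ : M) = ⟨y, hSM hy⟩ * ⟨z, hSM hz⟩ := rfl
      rw [e]
      exact T.mul_mem (iy _) (iz _)
  obtain ⟨x, hx⟩ := x
  exact key x (hM hx) hx

/-- A ring homomorphism with values in the range of an injective one factors through it. -/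
theorem exists_ringHom_lift {A B C : Type*} [Semiring A] [Semiring B] [Semiring C]
    (θ : B →+* C) (hθ : Function.Injective θ) (ψ : A →+* C) (h : ∀ x, ∃ y, θ y = ψ x) :
    ∃ w : A →+* B, ∀ x, θ (w x) = ψ x := by
  choose f hf using h
  exact ⟨{ toFun := f
           map_one' := hθ (by rw [hf, map_one, map_one])
           map_mul' := fun x y => hθ (by rw [hf, map_mul, map_mul, hf, hf])
           map_zero' := hθ (by rw [hf, map_zero, map_zero])
           map_add' := fun x y => hθ (by rw [hf, map_add, map_add, hf, hf]) }, hf⟩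

/-- Transport of the norm along an automorphism of the top field exchanging two embeddings. -/
theorem norm_along_eq_of_swap {K F F' : Type*} [Field K] [Field F] [Field F'] [Algebra K F]
    [Algebra K F'] (φ ψ : F →ₐ[K] F') (w : F' ≃+* F') (hw : ∀ c, w (φ c) = ψ c) (x : F') :
    (letI := algebraAlong φ; Algebra.norm F x) = (letI := algebraAlong ψ; Algebra.norm F (w x)) := by
  have h := @Algebra.norm_eq_of_equiv_equiv F F' F F' _ _ _ _ (algebraAlong φ) (algebraAlong ψ)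
    (RingEquiv.refl F) w (by
      ext c
      exact (hw c).symm) x
  exact h

end Generic

section Modular

variable (N ℓ : ℕ) [NeZero N] [NeZero ℓ]

attribute [local instance] Fermat.Agent.S37.H65.algBeta Fermat.Agent.S37.H65.algOm

/-- `θ : F_{Nℓ} → Ω`, `g ↦ g(q^ℓ)`. -/
def thetaHom : ↥(modularFunctionFieldBar (N * ℓ)) →+* Om ℓ :=
  (iota ℓ).comp ((qExpand Kb ℓ).comp
    (algebraMap ↥(modularFunctionFieldBar (N * ℓ)) (LaurentSeries Kb)))

theorem thetaHom_apply (g : ↥(modularFunctionFieldBar (N * ℓ))) :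
    thetaHom N ℓ g = iota ℓ (qExpand Kb ℓ (g : LaurentSeries Kb)) := rfl

theorem thetaHom_injective : Function.Injective (thetaHom N ℓ) := fun g g' h =>
  Subtype.ext (qExpand_injective ℓ (iota_injective ℓ h))

/-- The generators `j(q^d)`, `d ∣ Nℓ`, of `F_{Nℓ}` are of the form `α c` or `β c`. -/
theorem gen_cases (hℓ : ℓ.Prime) {x : LaurentSeries Kb} (hx : x ∈ divisorExpansionsC Kb (N * ℓ)) :
    ∃ c : ↥(modularFunctionFieldBar N),
      x = (c : LaurentSeries Kb) ∨ x = qExpand Kb ℓ (c : LaurentSeries Kb) := by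
  obtain ⟨d, hne, hdvd, rfl⟩ := hx
  haveI := hne
  by_cases h : ℓ ∣ d
  · obtain ⟨d', rfl⟩ := h
    have hd'0 : d' ≠ 0 := fun h0 => (NeZero.ne (ℓ * d')) (by rw [h0, mul_zero])
    haveI : NeZero d' := ⟨hd'0⟩
    have hd' : d' ∣ N := by
      rw [mul_comm N ℓ] at hdvd
      exact Nat.dvd_of_mul_dvd_mul_left hℓ.pos hdvd
    refine ⟨jEl N d' hd', Or.inr ?_⟩
    show qExpand Kb (ℓ * d') (jqModC Kb) = qExpand Kb ℓ (qExpand Kb d' (jqModC Kb))
    rw [qExpand_qExpand]
  · have hcop : Nat.Coprime d ℓ := ((Nat.Prime.coprime_iff_not_dvd hℓ).mpr h).symm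
    exact ⟨jEl N d (hcop.dvd_of_dvd_mul_right hdvd), Or.inl rfl⟩

theorem divisorExpansionsC_subset (M : ℕ) [NeZero M] :
    divisorExpansionsC Kb M ⊆ (modularFunctionFieldBar M : Set (LaurentSeries Kb)) := by
  rintro _ ⟨d, hne, hdvd, rfl⟩
  haveI := hne
  exact (jEl M d hdvd).2

theorem le_adjoin_divisorExpansionsC (M : ℕ) [NeZero M] :
    modularFunctionFieldBar M ≤ adjoin Kb (divisorExpansionsC Kb M) := by
  rw [modularFunctionFieldBar_eq_fullC, modularFunctionFieldFullC]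

/-- **The formal Atkin–Lehner involution** `W_ℓ` of `F_{Nℓ}` (`ℓ` prime, `ℓ ∤ N`): a ring
automorphism exchanging the two degeneracy maps `α` and `β`. -/
theorem exists_atkinLehner_swap (hℓ : ℓ.Prime) (hℓN : ¬ ℓ ∣ N) :
    ∃ w : ↥(modularFunctionFieldBar (N * ℓ)) ≃+* ↥(modularFunctionFieldBar (N * ℓ)),
      (∀ c : ↥(modularFunctionFieldBar N), w (heckeAlphaBar Kb N ℓ c) = heckeBetaBar Kb N ℓ c) ∧
      (∀ c : ↥(modularFunctionFieldBar N), w (heckeBetaBar Kb N ℓ c) = heckeAlphaBar Kb N ℓ c) := by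
  obtain ⟨ζ, hζ⟩ := Fermat.Agent.S37.H46.exists_zeta ℓ hℓ
  obtain ⟨ψ, hψα, -⟩ := exists_last_conjugate N ℓ hℓ hℓN ζ hζ
  -- `ψ` on the two copies of `F_N`
  have hA : ∀ c : ↥(modularFunctionFieldBar N),
      ψ (heckeAlphaBar Kb N ℓ c) = thetaHom N ℓ (heckeBetaBar Kb N ℓ c) := fun c => by
    rw [hψα c, thetaHom_apply, coe_heckeBetaBar, qExpand_qExpand]
  have hB : ∀ c : ↥(modularFunctionFieldBar N),
      ψ (heckeBetaBar Kb N ℓ c) = thetaHom N ℓ (heckeAlphaBar Kb N ℓ c) := fun c => by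
    rw [thetaHom_apply, coe_heckeAlphaBar]
    exact ψ.commutes c
  have hS := divisorExpansionsC_subset (N * ℓ)
  have hM := le_adjoin_divisorExpansionsC (N * ℓ)
  -- the generators, as elements of `F_{Nℓ}`
  have hgen : ∀ x (hx : x ∈ divisorExpansionsC Kb (N * ℓ)),
      ∃ c : ↥(modularFunctionFieldBar N),
        (⟨x, hS hx⟩ : ↥(modularFunctionFieldBar (N * ℓ))) = heckeAlphaBar Kb N ℓ c ∨
        (⟨x, hS hx⟩ : ↥(modularFunctionFieldBar (N * ℓ))) = heckeBetaBar Kb N ℓ c := by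
    intro x hx
    obtain ⟨c, hc | hc⟩ := gen_cases N ℓ hℓ hx
    · exact ⟨c, Or.inl (Subtype.ext (by rw [coe_heckeAlphaBar]; exact hc))⟩
    · exact ⟨c, Or.inr (Subtype.ext (by rw [coe_heckeBetaBar]; exact hc))⟩
  -- `ψ` takes values in the range of `θ`
  have hrange : ∀ x : ↥(modularFunctionFieldBar (N * ℓ)), ∃ y, thetaHom N ℓ y = ψ x := by
    intro x
    have hx : x ∈ (thetaHom N ℓ).fieldRange.comap
        (ψ : ↥(modularFunctionFieldBar (N * ℓ)) →+* Om ℓ) := by
      refine forall_mem_subfield_of_le_adjoin (modularFunctionFieldBar (N * ℓ)) hS hM _ ?_ ?_ x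
      · intro a
        rw [Subfield.mem_comap, ← (heckeAlphaBar Kb N ℓ).commutes a]
        exact ⟨_, (hA _).symm⟩
      · intro y hy
        rw [Subfield.mem_comap]
        obtain ⟨c, hc | hc⟩ := hgen y hy
        · rw [hc]
          exact ⟨_, (hA c).symm⟩
        · rw [hc]
          exact ⟨_, (hB c).symm⟩
    exact hx
  obtain ⟨w, hw⟩ := exists_ringHom_lift (thetaHom N ℓ) (thetaHom_injective N ℓ)
    (ψ : ↥(modularFunctionFieldBar (N * ℓ)) →+* Om ℓ) hrange
  have hwα : ∀ c : ↥(modularFunctionFieldBar N),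
      w (heckeAlphaBar Kb N ℓ c) = heckeBetaBar Kb N ℓ c := fun c =>
    thetaHom_injective N ℓ ((hw _).trans (hA c))
  have hwβ : ∀ c : ↥(modularFunctionFieldBar N),
      w (heckeBetaBar Kb N ℓ c) = heckeAlphaBar Kb N ℓ c := fun c =>
    thetaHom_injective N ℓ ((hw _).trans (hB c))
  -- `w` is an involution
  have hww : w.comp w = RingHom.id _ := by
    refine ringHom_ext_of_le_adjoin (modularFunctionFieldBar (N * ℓ)) hS hM _ _ ?_ ?_
    · intro a
      show w (w (algebraMap Kb ↥(modularFunctionFieldBar (N * ℓ)) a)) =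
        algebraMap Kb ↥(modularFunctionFieldBar (N * ℓ)) a
      rw [← (heckeAlphaBar Kb N ℓ).commutes a, hwα, hwβ]
    · intro y hy
      show w (w ⟨y, hS hy⟩) = ⟨y, hS hy⟩
      obtain ⟨c, hc | hc⟩ := hgen y hy
      · rw [hc, hwα, hwβ]
      · rw [hc, hwβ, hwα]
  exact ⟨RingEquiv.ofRingHom w w hww hww, hwα, hwβ⟩

/-- **Symmetry of the two Hecke norms** (`ℓ` prime, `ℓ ∤ N`): `N_α(β u) = N_β(α u)`. -/
theorem normAB_eq_norm_beta_alpha (hℓ : ℓ.Prime) (hℓN : ¬ ℓ ∣ N)
    (u : ↥(modularFunctionFieldBar N)) :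
    normAB N ℓ u = (letI := algebraAlong (heckeBetaBar Kb N ℓ);
      Algebra.norm ↥(modularFunctionFieldBar N) (heckeAlphaBar Kb N ℓ u)) := by
  obtain ⟨w, hwα, hwβ⟩ := exists_atkinLehner_swap N ℓ hℓ hℓN
  rw [normAB_def]
  have h := norm_along_eq_of_swap (heckeAlphaBar Kb N ℓ) (heckeBetaBar Kb N ℓ) w hwα
    (heckeBetaBar Kb N ℓ u)
  rw [hwβ] at h
  exact h

/-- **(H-b)  The Hecke norm as a `q`-series** (`ℓ` prime, `ℓ ∤ N`, `ζ` a primitive `ℓ`-th root of
unity): `N_α(β u) = heckeKron ζ ℓ u`. -/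
theorem coe_normAB (hℓ : ℓ.Prime) (hℓN : ¬ ℓ ∣ N) (ζ : Kbˣ) (hζ : IsPrimitiveRoot ζ ℓ)
    (u : ↥(modularFunctionFieldBar N)) :
    ((normAB N ℓ u : ↥(modularFunctionFieldBar N)) : LaurentSeries Kb)
      = heckeKron ζ ℓ (u : LaurentSeries Kb) := by
  rw [normAB_eq_norm_beta_alpha N ℓ hℓ hℓN u]
  exact coe_norm_alpha N ℓ hℓ hℓN ζ hζ u

/-- **(H-b), expanded form**: `N_α(β u)(q^ℓ) = u(q^{ℓ²}) · ∏_{b<ℓ} u(ζ^b q)`. -/
theorem qExpand_normAB (hℓ : ℓ.Prime) (hℓN : ¬ ℓ ∣ N) (ζ : Kbˣ) (hζ : IsPrimitiveRoot ζ ℓ)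
    (u : ↥(modularFunctionFieldBar N)) :
    qExpand Kb ℓ ((normAB N ℓ u : ↥(modularFunctionFieldBar N)) : LaurentSeries Kb)
      = qExpand Kb (ℓ * ℓ) (u : LaurentSeries Kb) *
          ∏ b ∈ Finset.range ℓ, qScale (ζ ^ b) (u : LaurentSeries Kb) := by
  rw [coe_normAB N ℓ hℓ hℓN ζ hζ u]
  exact qExpand_heckeKron hζ _

end Modular

end Fermat.Agent.S42.H13
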