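/-
Program A (S29 + S42), leaf (HECKE), analytic form of the norm identity (helper13).

For a prime `ℓ ∤ N` and `u = evF P / evF Q ∈ F_N`, `N_α(β u) = evF P' / evF Q'`:

  `Θ(P')(τ) · Θ(Q)(ℓτ) · ∏_{b<ℓ} Θ(Q)((τ+b)/ℓ) = Θ(Q')(τ) · Θ(P)(ℓτ) · ∏_{b<ℓ} Θ(P)((τ+b)/ℓ)`

for every `τ` in the upper half plane, i.e. `Θ(N_α(β u))(τ) = Θ(u)(ℓτ) ∏_b Θ(u)((τ+b)/ℓ)` in a
cross-multiplied, interface-free form (no choice of a model of meromorphic functions).

Proof: the formal identity `S42.H13.qExpand_normAB`, mapped to `ℂ((q))` by `iota`, together with the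
pointwise expansions `S24.H18.hasSum_Theta` (valid on all of `ℍ`), transported along
`τ ↦ ℓτ, ℓ²τ, τ + b/ℓ`; the root of unity is chosen with `iota ζ = e^{2πi/ℓ}`.
-/
import Mathlib
import Fermat.Agent.S24.Exp
import Fermat.Agent.S24.Inf
import Fermat.Agent.S24.H18.ThetaExp
import Fermat.Agent.S28.Formal
import Fermat.Agent.S42.H13.HeckeNorm

set_option autoImplicit false
set_option linter.style.haveILetI false
set_option linter.unusedSectionVars false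

open UpperHalfPlane ModularCurve AlgebraicCurve Filter
open scoped Real

noncomputable section

namespace Fermat.Agent.S42.H13

open Fermat.Agent.S24 Fermat.Agent.S28

section Series

/-- Base change of coefficients commutes with `q ↦ q^n`. -/
theorem coeffMap_qExpand_eq {R S : Type*} [CommRing R] [CommRing S] (f : R →+* S) (n : ℕ)
    [NeZero n] (x : LaurentSeries R) :
    coeffMap f (qExpand R n x) = qExpand S n (coeffMap f x) := by
  ext k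
  by_cases hk : (n : ℤ) ∣ k
  · obtain ⟨m, rfl⟩ := hk
    rw [coeffMap_coeff, qExpand_coeff_mul, qExpand_coeff_mul, coeffMap_coeff]
  · rw [coeffMap_coeff, qExpand_coeff_of_not_dvd n x hk, qExpand_coeff_of_not_dvd n _ hk,
      map_zero]

/-- The two landed versions of `q ↦ c q` agree. -/
theorem qScale_eq_scaleHom {C : Type*} [Field C] (c : Cˣ) (x : LaurentSeries C) :
    qScale c x = scaleHom c x := by
  ext n
  rw [qScale_coeff, scaleHom_coeff]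

/-- Pointwise transport of an expansion along `τ ↦ (A τ + B) / D` (integral exponent ratio). -/
theorem hasSum_affine {f : ℍ → ℂ} {L : LaurentSeries ℂ}
    (hf : ∀ τ : ℍ, HasSum (fun n : ℤ => L.coeff n * qN 1 τ ^ n) (f τ))
    (A B D m : ℕ) [NeZero m] (hA : 0 < A) (hD : 0 < D) (hm : m * D = 1 * A) (ζ : ℂˣ)
    (hζ : (ζ : ℂ) = Complex.exp (2 * π * Complex.I * B / D)) (τ : ℍ) :
    HasSum (fun k : ℤ => (qExpand ℂ m (scaleHom ζ L)).coeff k * qN 1 τ ^ k)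
      (f (ofComplex (((A : ℂ) * τ + B) / D))) := by
  have h := hf (ofComplex (((A : ℂ) * τ + B) / D))
  rw [H62.qN_one_affine 1 A B D m hA hD hm τ, ← hζ] at h
  refine H62.hasSum_expand_scale (NeZero.ne m) ?_ ?_ h
  · intro n
    rw [qExpand_coeff_mul, scaleHom_coeff, Units.val_zpow_eq_zpow_val]
  · intro k hk
    exact qExpand_coeff_of_not_dvd m _ hk

/-- Finite products of convergent Laurent expansions. -/
theorem hasSum_laurent_prod {ι : Type*} (s : Finset ι) (L : ι → LaurentSeries ℂ) (a : ι → ℂ)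
    {q : ℂ} (hq : q ≠ 0) (h : ∀ i ∈ s, HasSum (fun n : ℤ => (L i).coeff n * q ^ n) (a i)) :
    HasSum (fun n : ℤ => (∏ i ∈ s, L i).coeff n * q ^ n) (∏ i ∈ s, a i) := by
  classical
  induction s using Finset.induction_on with
  | empty =>
    have h1 := H18.hasSum_laurent_C 1 q
    rw [map_one] at h1
    simpa using h1
  | insert i s hi ih =>
    rw [Finset.prod_insert hi, Finset.prod_insert hi]
    exact H18.hasSum_laurent_mul hq (h i (Finset.mem_insert_self i s))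
      (ih fun j hj => h j (Finset.mem_insert_of_mem hj))

end Series

section Root

/-- A primitive `ℓ`-th root of unity of `ℚ̄` mapped to `e^{2πi/ℓ}` by `iota`. -/
theorem exists_zeta_iota (ℓ : ℕ) (hℓ : ℓ.Prime) :
    ∃ ζ : Kbarˣ, IsPrimitiveRoot ζ ℓ ∧
      iota (ζ : Kbar) = Complex.exp (2 * π * Complex.I / ℓ) := by
  haveI : NeZero ℓ := ⟨hℓ.ne_zero⟩
  obtain ⟨ζ, hζ⟩ := Fermat.Agent.S37.H46.exists_zeta ℓ hℓ
  have h1 : IsPrimitiveRoot (iota (ζ : Kbar)) ℓ :=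
    (IsPrimitiveRoot.coe_units_iff.mpr hζ).map_of_injective iota.injective
  have h0 : IsPrimitiveRoot (Complex.exp (2 * π * Complex.I / ℓ)) ℓ :=
    Complex.isPrimitiveRoot_exp ℓ hℓ.ne_zero
  obtain ⟨i, -, hi⟩ := h1.eq_pow_of_pow_eq_one h0.pow_eq_one
  refine ⟨ζ ^ i, ?_, ?_⟩
  · rw [← IsPrimitiveRoot.coe_units_iff]
    refine IsPrimitiveRoot.of_map_of_injective (f := iota) ?_ iota.injective
    rw [Units.val_pow_eq_pow_val, map_pow, hi]
    exact h0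
  · rw [Units.val_pow_eq_pow_val, map_pow, hi]

end Root

section Modular

variable (N ℓ : ℕ) [NeZero N] [NeZero ℓ]

/-- The formal norm identity, cross-multiplied and mapped to `ℂ((q))`. -/
theorem expC_normAB_cross (hℓ : ℓ.Prime) (hℓN : ¬ ℓ ∣ N) (ζ : Kbarˣ) (hζ : IsPrimitiveRoot ζ ℓ)
    (P Q P' Q' : MvPolynomial (N.divisors) Kbar) (hQ : evF N Q ≠ 0) (hQ' : evF N Q' ≠ 0)
    (h : normAB N ℓ (evF N P / evF N Q) = evF N P' / evF N Q') :
    qExpand ℂ ℓ (H18.expC N (evF N P')) *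
        (qExpand ℂ (ℓ * ℓ) (H18.expC N (evF N Q)) *
          ∏ b ∈ Finset.range ℓ,
            scaleHom (Units.map (iota : Kbar →+* ℂ).toMonoidHom ζ ^ b) (H18.expC N (evF N Q)))
      = qExpand ℂ ℓ (H18.expC N (evF N Q')) *
        (qExpand ℂ (ℓ * ℓ) (H18.expC N (evF N P)) *
          ∏ b ∈ Finset.range ℓ,
            scaleHom (Units.map (iota : Kbar →+* ℂ).toMonoidHom ζ ^ b)
              (H18.expC N (evF N P))) := by
  set u : FF N := evF N P / evF N Q with hu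
  have key := qExpand_normAB N ℓ hℓ hℓN ζ hζ u
  have hu1 : ((u : FF N) : LaurentSeries Kbar) * ((evF N Q : FF N) : LaurentSeries Kbar)
      = ((evF N P : FF N) : LaurentSeries Kbar) := by
    have : u * evF N Q = evF N P := div_mul_cancel₀ _ hQ
    rw [← this]
    rfl
  have hn1 : ((normAB N ℓ u : FF N) : LaurentSeries Kbar) *
      ((evF N Q' : FF N) : LaurentSeries Kbar) = ((evF N P' : FF N) : LaurentSeries Kbar) := by
    have : normAB N ℓ u * evF N Q' = evF N P' := by rw [h]; exact div_mul_cancel₀ _ hQ'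
    rw [← this]
    rfl
  -- the identity over `ℚ̄`
  have hK : qExpand Kbar ℓ ((evF N P' : FF N) : LaurentSeries Kbar) *
        (qExpand Kbar (ℓ * ℓ) ((evF N Q : FF N) : LaurentSeries Kbar) *
          ∏ b ∈ Finset.range ℓ, qScale (ζ ^ b) ((evF N Q : FF N) : LaurentSeries Kbar))
      = qExpand Kbar ℓ ((evF N Q' : FF N) : LaurentSeries Kbar) *
        (qExpand Kbar (ℓ * ℓ) ((evF N P : FF N) : LaurentSeries Kbar) *
          ∏ b ∈ Finset.range ℓ, qScale (ζ ^ b) ((evF N P : FF N) : LaurentSeries Kbar)) := by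
    rw [← hn1, ← hu1, map_mul, key]
    simp only [map_mul, Finset.prod_mul_distrib]
    ring
  have hC := congrArg (coeffMap iota) hK
  simp only [map_mul, map_prod, coeffMap_qExpand_eq, coeffMap_qScale] at hC
  simp only [qScale_eq_scaleHom, map_pow] at hC
  exact hC

/-- The point `(τ + b) / ℓ` of the upper half plane. -/
def heckeShift (b : ℕ) (τ : ℍ) : ℍ :=
  ⟨((τ : ℂ) + b) / ℓ, by
    have h := H62.im_affine_pos 1 b ℓ one_pos (Nat.pos_of_ne_zero (NeZero.ne ℓ)) τ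
    simpa using h⟩

@[simp] theorem coe_heckeShift (b : ℕ) (τ : ℍ) :
    (heckeShift ℓ b τ : ℂ) = ((τ : ℂ) + b) / ℓ := rfl

/-- Pointwise expansion of `Θ(P)`, in the parameter `qN 1`. -/
theorem hasSum_Theta_qN (P : MvPolynomial (N.divisors) Kbar) (τ : ℍ) :
    HasSum (fun n : ℤ => (H18.expC N (evF N P)).coeff n * qN 1 τ ^ n) (Theta N P τ) := by
  have h := H18.hasSum_Theta N P τ
  simpa [qN] using h

/-- **Analytic norm identity, raw form** (arguments `ℓτ`, `ℓ²τ`, `τ + b/ℓ`). -/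
theorem theta_normAB_aux (hℓ : ℓ.Prime) (hℓN : ¬ ℓ ∣ N)
    (P Q P' Q' : MvPolynomial (N.divisors) Kbar) (hQ : evF N Q ≠ 0) (hQ' : evF N Q' ≠ 0)
    (h : normAB N ℓ (evF N P / evF N Q) = evF N P' / evF N Q') (τ : ℍ) :
    Theta N P' (ofComplex ((((ℓ : ℕ) : ℂ) * τ + ((0 : ℕ) : ℂ)) / ((1 : ℕ) : ℂ))) *
        (Theta N Q (ofComplex ((((ℓ * ℓ : ℕ) : ℂ) * τ + ((0 : ℕ) : ℂ)) / ((1 : ℕ) : ℂ))) *
          ∏ b ∈ Finset.range ℓ,
            Theta N Q (ofComplex ((((ℓ : ℕ) : ℂ) * τ + ((b : ℕ) : ℂ)) / ((ℓ : ℕ) : ℂ))))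
      = Theta N Q' (ofComplex ((((ℓ : ℕ) : ℂ) * τ + ((0 : ℕ) : ℂ)) / ((1 : ℕ) : ℂ))) *
        (Theta N P (ofComplex ((((ℓ * ℓ : ℕ) : ℂ) * τ + ((0 : ℕ) : ℂ)) / ((1 : ℕ) : ℂ))) *
          ∏ b ∈ Finset.range ℓ,
            Theta N P (ofComplex ((((ℓ : ℕ) : ℂ) * τ + ((b : ℕ) : ℂ)) / ((ℓ : ℕ) : ℂ)))) := by
  obtain ⟨ζ, hζ, hζι⟩ := exists_zeta_iota ℓ hℓ
  have hℓpos : 0 < ℓ := hℓ.pos
  have hq : qN 1 τ ≠ 0 := qN_ne_zero 1 τ
  set ζC : ℂˣ := Units.map (iota : Kbar →+* ℂ).toMonoidHom ζ with hζC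
  have hζC1 : (ζC : ℂ) = Complex.exp (2 * π * Complex.I / ℓ) := hζι
  have hζb : ∀ b : ℕ, ((ζC ^ b : ℂˣ) : ℂ) = Complex.exp (2 * π * Complex.I * (b : ℕ) / (ℓ : ℕ)) := by
    intro b
    rw [Units.val_pow_eq_pow_val, hζC1, ← Complex.exp_nat_mul]
    congr 1
    ring
  have h1 : (1 : ℂˣ) = (1 : ℂˣ) := rfl
  have hone : ((1 : ℂˣ) : ℂ) = Complex.exp (2 * π * Complex.I * ((0 : ℕ) : ℂ) / ((1 : ℕ) : ℂ)) := by
    simp
  -- the expansions of the six kinds of factors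
  have e1 : ∀ R : MvPolynomial (N.divisors) Kbar,
      HasSum (fun k : ℤ => (qExpand ℂ ℓ (H18.expC N (evF N R))).coeff k * qN 1 τ ^ k)
        (Theta N R (ofComplex ((((ℓ : ℕ) : ℂ) * τ + ((0 : ℕ) : ℂ)) / ((1 : ℕ) : ℂ)))) := by
    intro R
    have := hasSum_affine (hasSum_Theta_qN N R) ℓ 0 1 ℓ hℓpos one_pos (by ring) 1 hone τ
    rwa [H88.scaleHom_one] at this
  have e2 : ∀ R : MvPolynomial (N.divisors) Kbar,
      HasSum (fun k : ℤ => (qExpand ℂ (ℓ * ℓ) (H18.expC N (evF N R))).coeff k * qN 1 τ ^ k)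
        (Theta N R (ofComplex ((((ℓ * ℓ : ℕ) : ℂ) * τ + ((0 : ℕ) : ℂ)) / ((1 : ℕ) : ℂ)))) := by
    intro R
    have := hasSum_affine (hasSum_Theta_qN N R) (ℓ * ℓ) 0 1 (ℓ * ℓ) (Nat.mul_pos hℓpos hℓpos)
      one_pos (by ring) 1 hone τ
    rwa [H88.scaleHom_one] at this
  have e3 : ∀ (R : MvPolynomial (N.divisors) Kbar) (b : ℕ),
      HasSum (fun k : ℤ => (scaleHom (ζC ^ b) (H18.expC N (evF N R))).coeff k * qN 1 τ ^ k)
        (Theta N R (ofComplex ((((ℓ : ℕ) : ℂ) * τ + ((b : ℕ) : ℂ)) / ((ℓ : ℕ) : ℂ)))) := by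
    intro R b
    have := hasSum_affine (hasSum_Theta_qN N R) ℓ b ℓ 1 hℓpos hℓpos (by ring) (ζC ^ b) (hζb b) τ
    rwa [qExpand_one_apply] at this
  have E := fun R S : MvPolynomial (N.divisors) Kbar =>
    H18.hasSum_laurent_mul hq (e1 R) (H18.hasSum_laurent_mul hq (e2 S)
      (hasSum_laurent_prod (Finset.range ℓ) (fun b => scaleHom (ζC ^ b) (H18.expC N (evF N S)))
        (fun b => Theta N S (ofComplex ((((ℓ : ℕ) : ℂ) * τ + ((b : ℕ) : ℂ)) / ((ℓ : ℕ) : ℂ))))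
        hq (fun b _ => e3 S b)))
  have hL := E P' Q
  have hR := E Q' P
  rw [expC_normAB_cross N ℓ hℓ hℓN ζ hζ P Q P' Q' hQ hQ' h] at hL
  exact hL.unique hR

/-- **(HECKE), analytic norm identity.**  For a prime `ℓ ∤ N`, `u = evF P / evF Q` and
`N_α(β u) = evF P' / evF Q'`:
`Θ(P')(τ) Θ(Q)(ℓτ) ∏_b Θ(Q)((τ+b)/ℓ) = Θ(Q')(τ) Θ(P)(ℓτ) ∏_b Θ(P)((τ+b)/ℓ)` on all of `ℍ`. -/
theorem theta_normAB (hℓ : ℓ.Prime) (hℓN : ¬ ℓ ∣ N)
    (P Q P' Q' : MvPolynomial (N.divisors) Kbar) (hQ : evF N Q ≠ 0) (hQ' : evF N Q' ≠ 0)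
    (h : normAB N ℓ (evF N P / evF N Q) = evF N P' / evF N Q') (τ : ℍ) :
    Theta N P' τ *
        (Theta N Q (levelMul ℓ τ) * ∏ b ∈ Finset.range ℓ, Theta N Q (heckeShift ℓ b τ))
      = Theta N Q' τ *
        (Theta N P (levelMul ℓ τ) * ∏ b ∈ Finset.range ℓ, Theta N P (heckeShift ℓ b τ)) := by
  have hℓC : ((ℓ : ℕ) : ℂ) ≠ 0 := Nat.cast_ne_zero.mpr (NeZero.ne ℓ)
  have key := theta_normAB_aux N ℓ hℓ hℓN P Q P' Q' hQ hQ' h (heckeShift ℓ 0 τ)
  have a1 : ofComplex ((((ℓ : ℕ) : ℂ) * (heckeShift ℓ 0 τ : ℂ) + ((0 : ℕ) : ℂ)) / ((1 : ℕ) : ℂ))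
      = τ := by
    have : (((ℓ : ℕ) : ℂ) * (heckeShift ℓ 0 τ : ℂ) + ((0 : ℕ) : ℂ)) / ((1 : ℕ) : ℂ) = (τ : ℂ) := by
      rw [coe_heckeShift]
      push_cast
      field_simp
      ring
    rw [this, ofComplex_apply]
  have a2 : ofComplex ((((ℓ * ℓ : ℕ) : ℂ) * (heckeShift ℓ 0 τ : ℂ) + ((0 : ℕ) : ℂ)) /
      ((1 : ℕ) : ℂ)) = levelMul ℓ τ := by
    have : (((ℓ * ℓ : ℕ) : ℂ) * (heckeShift ℓ 0 τ : ℂ) + ((0 : ℕ) : ℂ)) / ((1 : ℕ) : ℂ)
        = (levelMul ℓ τ : ℂ) := by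
      rw [coe_heckeShift, coe_levelMul]
      push_cast
      field_simp
      ring
    rw [this, ofComplex_apply]
  have a3 : ∀ b : ℕ, ofComplex ((((ℓ : ℕ) : ℂ) * (heckeShift ℓ 0 τ : ℂ) + ((b : ℕ) : ℂ)) /
      ((ℓ : ℕ) : ℂ)) = heckeShift ℓ b τ := by
    intro b
    have : (((ℓ : ℕ) : ℂ) * (heckeShift ℓ 0 τ : ℂ) + ((b : ℕ) : ℂ)) / ((ℓ : ℕ) : ℂ)
        = (heckeShift ℓ b τ : ℂ) := by
      rw [coe_heckeShift, coe_heckeShift]
      push_cast
      field_simp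
      ring
    rw [this, ofComplex_apply]
  simp only [a1, a2, a3] at key
  exact key

end Modular

end Fermat.Agent.S42.H13
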