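/-
Program A (S29 + S42), skeleton leaf 4 (`H96.LeafHecke`): Hecke equivariance of the Kummer
relation (helper13; independent copy as named backup of task AJ-04).

  `ℓ ∤ N`,  `Rel N p ψ x`  ⟹  `Rel N p (heckeHom N ℓ (ZMod p) ψ) (heckeOperatorBar N ℓ x)`.

Recipe (helper96): from `(C, D, G)` with `div (evF C) = p • D`, `G ^ p = Θ(C)`, character `ζ_p^ψ`:
`u₁ := N_α(β (evF C)) = evF P / evF Q`, `C₁ := P · Q^(p-1)`, `D₁ := T_ℓ(D) + div (evF Q)`,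
`G₁ := heckeProd G · Θ(Q)`.

* divisor side: `S42.H13.heckeOperatorBar_mk_of_smul_eq_div` (`HeckeDiv.lean`);
* root: `S42.H13.theta_normAB` (`HeckeTheta.lean`): `Θ(P) = Θ(Q) · heckeProd Θ(C)`;
* character: `S29.H15.heckeProd_smul` (helper15) with the additive character `a ↦ ζ_p ^ a`.
-/
import Mathlib
import Fermat.Agent.S42.H96.Skeleton
import Fermat.Agent.S29.H15.HeckeChar
import Fermat.Agent.S42.H13.HeckeTheta
import Fermat.Agent.S24.Ker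
import Fermat.Agent.S24.Transl
import Fermat.Agent.S18.H13.PrincDiv

set_option autoImplicit false
set_option linter.style.haveILetI false
set_option linter.unusedSectionVars false

open UpperHalfPlane CongruenceSubgroup ModularCurve AlgebraicCurve
open scoped MatrixGroups Manifold

noncomputable section

namespace Fermat.Agent.S42.H13

open Fermat.Agent.S24 Fermat.Agent.S29.H15 Fermat.Agent.S16.H75 Fermat.Agent.S42.H96

/-! ### The Hecke representatives act as `τ ↦ ℓτ`, `τ ↦ (τ + j)/ℓ` -/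

theorem det_heckeDiagMatrix_pos' (ℓ : ℕ) [NeZero ℓ] :
    0 < (ModularForm.heckeDiagMatrix ℓ).det.val := by
  have hℓ : ℓ ≠ 0 := NeZero.ne ℓ
  rw [Matrix.GeneralLinearGroup.val_det_apply, ModularForm.val_heckeDiagMatrix hℓ,
    Matrix.det_fin_two_of]
  have : (0 : ℝ) < ℓ := by exact_mod_cast Nat.pos_of_ne_zero hℓ
  simpa using this

theorem det_heckeMatrix_pos' (ℓ : ℕ) [NeZero ℓ] (j : ℕ) :
    0 < (ModularForm.heckeMatrix ℓ j).det.val := by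
  have hℓ : ℓ ≠ 0 := NeZero.ne ℓ
  rw [Matrix.GeneralLinearGroup.val_det_apply, ModularForm.val_heckeMatrix hℓ,
    Matrix.det_fin_two_of]
  have : (0 : ℝ) < ℓ := by exact_mod_cast Nat.pos_of_ne_zero hℓ
  simpa using this

theorem heckeDiagMatrix_smul (ℓ : ℕ) [NeZero ℓ] (τ : ℍ) :
    ModularForm.heckeDiagMatrix ℓ • τ = levelMul ℓ τ := by
  have hℓ : ℓ ≠ 0 := NeZero.ne ℓ
  apply UpperHalfPlane.ext
  rw [coe_smul_of_det_pos (det_heckeDiagMatrix_pos' ℓ), coe_levelMul, num, denom]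
  have h00 : (ModularForm.heckeDiagMatrix ℓ : GL (Fin 2) ℝ) 0 0 = (ℓ : ℝ) := by
    show ((ModularForm.heckeDiagMatrix ℓ : GL (Fin 2) ℝ) : Matrix (Fin 2) (Fin 2) ℝ) 0 0 = _
    rw [ModularForm.val_heckeDiagMatrix hℓ]; rfl
  have h01 : (ModularForm.heckeDiagMatrix ℓ : GL (Fin 2) ℝ) 0 1 = 0 := by
    show ((ModularForm.heckeDiagMatrix ℓ : GL (Fin 2) ℝ) : Matrix (Fin 2) (Fin 2) ℝ) 0 1 = _
    rw [ModularForm.val_heckeDiagMatrix hℓ]; rfl
  have h10 : (ModularForm.heckeDiagMatrix ℓ : GL (Fin 2) ℝ) 1 0 = 0 := by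
    show ((ModularForm.heckeDiagMatrix ℓ : GL (Fin 2) ℝ) : Matrix (Fin 2) (Fin 2) ℝ) 1 0 = _
    rw [ModularForm.val_heckeDiagMatrix hℓ]; rfl
  have h11 : (ModularForm.heckeDiagMatrix ℓ : GL (Fin 2) ℝ) 1 1 = 1 := by
    show ((ModularForm.heckeDiagMatrix ℓ : GL (Fin 2) ℝ) : Matrix (Fin 2) (Fin 2) ℝ) 1 1 = _
    rw [ModularForm.val_heckeDiagMatrix hℓ]; rfl
  rw [h00, h01, h10, h11]
  push_cast
  ring

theorem heckeMatrix_smul (ℓ : ℕ) [NeZero ℓ] (j : ℕ) (τ : ℍ) :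
    ModularForm.heckeMatrix ℓ j • τ = heckeShift ℓ j τ := by
  have hℓ : ℓ ≠ 0 := NeZero.ne ℓ
  apply UpperHalfPlane.ext
  rw [coe_smul_of_det_pos (det_heckeMatrix_pos' ℓ j), coe_heckeShift, num, denom]
  have h00 : (ModularForm.heckeMatrix ℓ j : GL (Fin 2) ℝ) 0 0 = 1 := by
    show ((ModularForm.heckeMatrix ℓ j : GL (Fin 2) ℝ) : Matrix (Fin 2) (Fin 2) ℝ) 0 0 = _
    rw [ModularForm.val_heckeMatrix hℓ]; rfl
  have h01 : (ModularForm.heckeMatrix ℓ j : GL (Fin 2) ℝ) 0 1 = (j : ℝ) := by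
    show ((ModularForm.heckeMatrix ℓ j : GL (Fin 2) ℝ) : Matrix (Fin 2) (Fin 2) ℝ) 0 1 = _
    rw [ModularForm.val_heckeMatrix hℓ]; rfl
  have h10 : (ModularForm.heckeMatrix ℓ j : GL (Fin 2) ℝ) 1 0 = 0 := by
    show ((ModularForm.heckeMatrix ℓ j : GL (Fin 2) ℝ) : Matrix (Fin 2) (Fin 2) ℝ) 1 0 = _
    rw [ModularForm.val_heckeMatrix hℓ]; rfl
  have h11 : (ModularForm.heckeMatrix ℓ j : GL (Fin 2) ℝ) 1 1 = (ℓ : ℝ) := by
    show ((ModularForm.heckeMatrix ℓ j : GL (Fin 2) ℝ) : Matrix (Fin 2) (Fin 2) ℝ) 1 1 = _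
    rw [ModularForm.val_heckeMatrix hℓ]; rfl
  rw [h00, h01, h10, h11]
  push_cast
  ring

/-- `heckeProd` (`ℓ ∤ N`) in the explicit form `W (ℓτ) * ∏_{b<ℓ} W ((τ+b)/ℓ)`. -/
theorem heckeProd_eq (N : ℕ) (ℓ : Nat.Primes) (h : ¬ (ℓ : ℕ) ∣ N) (W : ℍ → ℂ) (τ : ℍ) :
    haveI : NeZero (ℓ : ℕ) := ⟨ℓ.2.ne_zero⟩
    heckeProd N ℓ W τ =
      W (levelMul (ℓ : ℕ) τ) * ∏ b ∈ Finset.range (ℓ : ℕ), W (heckeShift (ℓ : ℕ) b τ) := by
  haveI : NeZero (ℓ : ℕ) := ⟨ℓ.2.ne_zero⟩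
  rw [heckeProd_of_not_dvd' h, heckeDiagMatrix_smul, ← Fin.prod_univ_eq_prod_range]
  congr 1
  exact Finset.prod_congr rfl fun j _ => by rw [heckeMatrix_smul]

/-- `heckeProd` of a pointwise power. -/
theorem heckeProd_pow (N : ℕ) (ℓ : Nat.Primes) (h : ¬ (ℓ : ℕ) ∣ N) (W : ℍ → ℂ) (p : ℕ) (τ : ℍ) :
    heckeProd N ℓ (fun z => W z ^ p) τ = heckeProd N ℓ W τ ^ p := by
  rw [heckeProd_eq N ℓ h, heckeProd_eq N ℓ h, mul_pow, Finset.prod_pow]

theorem heckeProd_congr (N : ℕ) (ℓ : Nat.Primes) {W W' : ℍ → ℂ} (hW : ∀ z, W z = W' z) (τ : ℍ) :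
    heckeProd N ℓ W τ = heckeProd N ℓ W' τ := by
  have : W = W' := funext hW
  rw [this]

theorem heckeProd_one (N : ℕ) (ℓ : Nat.Primes) (h : ¬ (ℓ : ℕ) ∣ N) (τ : ℍ) :
    heckeProd N ℓ (fun _ => (1 : ℂ)) τ = 1 := by
  rw [heckeProd_eq N ℓ h]
  simp

/-- Holomorphy of a finite product. -/
theorem mdiff_finset_prod {ι : Type*} (s : Finset ι) (f : ι → ℍ → ℂ) (hf : ∀ i ∈ s, MDiff (f i)) :
    MDiff (fun τ => ∏ i ∈ s, f i τ) := by
  classical
  induction s using Finset.induction_on with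
  | empty =>
    simp only [Finset.prod_empty]
    exact mdifferentiable_const
  | insert i s hi ih =>
    simp only [Finset.prod_insert hi]
    exact (hf i (Finset.mem_insert_self i s)).mul (ih fun j hj => hf j (Finset.mem_insert_of_mem hj))

/-- Holomorphy of `heckeProd N ℓ W` (`ℓ ∤ N`). -/
theorem mdiff_heckeProd (N : ℕ) (ℓ : Nat.Primes) (h : ¬ (ℓ : ℕ) ∣ N) {W : ℍ → ℂ} (hW : MDiff W) :
    MDiff (heckeProd N ℓ W) := by
  haveI : NeZero (ℓ : ℕ) := ⟨ℓ.2.ne_zero⟩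
  have e : heckeProd N ℓ W = fun τ => W (ModularForm.heckeDiagMatrix ℓ • τ) *
      ∏ j ∈ (Finset.univ : Finset (Fin ℓ)), W (ModularForm.heckeMatrix ℓ j • τ) :=
    funext fun τ => heckeProd_of_not_dvd' h W τ
  rw [e]
  refine (hW.comp (mdifferentiable_smul (det_heckeDiagMatrix_pos' ℓ))).mul ?_
  exact mdiff_finset_prod _ _ fun j _ =>
    hW.comp (mdifferentiable_smul (det_heckeMatrix_pos' ℓ j))

/-- **The analytic norm identity in `heckeProd` form** (helper15's `(H-norm)` shape). -/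
theorem theta_normAB_heckeProd (N : ℕ) [NeZero N] (ℓ : Nat.Primes) (hℓN : ¬ (ℓ : ℕ) ∣ N)
    (P Q P' Q' : MvPolynomial (N.divisors) Kbar) (hQ : evF N Q ≠ 0) (hQ' : evF N Q' ≠ 0)
    (h : (haveI : NeZero (ℓ : ℕ) := ⟨ℓ.2.ne_zero⟩;
      normAB N (ℓ : ℕ) (evF N P / evF N Q)) = evF N P' / evF N Q') (τ : ℍ) :
    Theta N P' τ * heckeProd N ℓ (Theta N Q) τ = Theta N Q' τ * heckeProd N ℓ (Theta N P) τ := by
  haveI : NeZero (ℓ : ℕ) := ⟨ℓ.2.ne_zero⟩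
  rw [heckeProd_eq N ℓ hℓN, heckeProd_eq N ℓ hℓN]
  exact theta_normAB N ℓ ℓ.2 hℓN P Q P' Q' hQ hQ' h τ

/-! ### The leaf -/

theorem zetaP_pow (p : ℕ) (hp : p ≠ 0) : zetaP p ^ p = 1 :=
  (Complex.isPrimitiveRoot_exp p hp).pow_eq_one

/-- **Skeleton leaf 4.**  Hecke equivariance of the Kummer relation. -/
theorem leafHecke (N p : ℕ) [NeZero N] (hp : p ≠ 0) : LeafHecke N p := by
  intro ℓ hℓN ψ x hx
  haveI : NeZero (ℓ : ℕ) := ⟨ℓ.2.ne_zero⟩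
  haveI : NeZero p := ⟨hp⟩
  obtain ⟨C, D, hC, hord, rfl, G, hG, hGp, hGχ⟩ := hx
  -- the norm and its polynomial representatives
  have hu₁ : normAB N (ℓ : ℕ) (evF N C) ≠ 0 := normAB_ne_zero N ℓ hC
  obtain ⟨P, Q, hQ, hPQ⟩ := evF_frac N (normAB N (ℓ : ℕ) (evF N C))
  have hP : evF N P ≠ 0 := by
    intro h0
    rw [hPQ, h0, zero_div] at hu₁
    exact hu₁ rfl
  -- divisor side
  obtain ⟨D', hT, hD'⟩ := heckeOperatorBar_mk_of_smul_eq_div N ℓ (p : ℤ) hC D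
    (fun v => (hord v).symm)
  haveI := Fermat.Agent.S18.H13.hasPrincipalDivisors_FF N
  obtain ⟨E, hE, hEdeg⟩ := HasPrincipalDivisors.exists_divisor (K := Kbar) (evF N Q) hQ
  set EQ : Divisor.degZero (K := Kbar) (F := FF N) := ⟨E, hEdeg⟩ with hEQ
  have hEQ0 : Pic0.mk EQ = 0 := by
    refine (QuotientAddGroup.eq_zero_iff _).mpr ?_
    rw [AddSubgroup.mem_addSubgroupOf]
    exact ⟨evF N Q, hQ, hE⟩
  obtain ⟨k, rfl⟩ : ∃ k, p = k + 1 := Nat.exists_eq_succ_of_ne_zero hp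
  refine ⟨P * Q ^ k, D' + EQ, ?_, ?_, ?_, ?_⟩
  · rw [map_mul, map_pow]
    exact mul_ne_zero hP (pow_ne_zero _ hQ)
  · intro v
    have h1 : v.ord (normAB N (ℓ : ℕ) (evF N C)) = v.ord (evF N P) - v.ord (evF N Q) := by
      rw [hPQ, div_eq_mul_inv, v.ord_mul hP (inv_ne_zero hQ), v.ord_inv]
      ring
    have h2 : v.ord (evF N Q ^ k) = k * v.ord (evF N Q) := by
      have := v.ord_zpow (evF N Q) (k : ℤ)
      rwa [zpow_natCast] at this
    have h3 := hD' v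
    have h4 : ((D' + EQ : Divisor.degZero (K := Kbar) (F := FF N)) : Divisor Kbar (FF N)) v
        = (D' : Divisor Kbar (FF N)) v + E v := rfl
    have hE' := hE v
    rw [map_mul, map_pow, v.ord_mul hP (pow_ne_zero _ hQ), h2, h4]
    push_cast at h3 ⊢
    linear_combination (-1 : ℤ) * h3 - h1 - ((k : ℤ) + 1) * hE'
  · rw [Pic0.mk_add, hEQ0, add_zero, hT]
  · -- the root
    have hkey : ∀ τ, Theta N P τ = Theta N Q τ * heckeProd N ℓ (Theta N C) τ := by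
      intro τ
      have h1 : evF N (1 : MvPolynomial (N.divisors) Kbar) ≠ 0 := by
        rw [map_one]; exact one_ne_zero
      have h := theta_normAB_heckeProd N ℓ hℓN C 1 P Q h1 hQ
        (by rw [map_one, div_one]; exact hPQ) τ
      rw [heckeProd_congr N ℓ (W' := fun _ => (1 : ℂ))
        (fun z => by rw [map_one]; rfl), heckeProd_one N ℓ hℓN, mul_one] at h
      exact h
    refine ⟨fun τ => heckeProd N ℓ G τ * Theta N Q τ, ?_, ?_, ?_⟩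
    · exact (mdiff_heckeProd N ℓ hℓN hG).mul (mdiff_Theta N Q)
    · intro τ
      have e1 : heckeProd N ℓ G τ ^ (k + 1) = heckeProd N ℓ (Theta N C) τ := by
        rw [← heckeProd_pow N ℓ hℓN]
        exact heckeProd_congr N ℓ hGp τ
      rw [mul_pow, e1, map_mul, map_pow, Pi.mul_apply, Pi.pow_apply, hkey τ]
      ring
    · intro γ τ
      have hζ : zetaP (k + 1) ^ (k + 1) = 1 := zetaP_pow (k + 1) hp
      have hW : ∀ (γ : Gamma0 N) (τ : ℍ), G ((γ : SL(2, ℤ)) • τ) =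
          AddChar.zmodChar (k + 1) hζ (ψ (Additive.ofMul γ)) * G τ := fun γ τ => hGχ γ τ
      have h1 := heckeProd_smul N ℓ (AddChar.zmodChar (k + 1) hζ) ψ hW γ τ
      show heckeProd N ℓ G ((γ : SL(2, ℤ)) • τ) * Theta N Q ((γ : SL(2, ℤ)) • τ) =
        chiOf (k + 1) (heckeHom N ℓ (ZMod (k + 1)) ψ) γ * (heckeProd N ℓ G τ * Theta N Q τ)
      rw [h1, Theta_smul_of_mem N γ.2 Q τ]
      show AddChar.zmodChar (k + 1) hζ (heckeHom N ℓ (ZMod (k + 1)) ψ (Additive.ofMul γ)) *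
          heckeProd N ℓ G τ * Theta N Q τ = _
      rw [mul_assoc]
      rfl

end Fermat.Agent.S42.H13
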